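/-
PROJECT J, slice J-4-L (abstract part): for a finitely generated group `G` and a set `S` of
elements, the additive homomorphisms `G → A` killing `S` are obtained from the integral ones by
base change, for every `ℤ`-flat (= torsion-free) coefficient module `A`.  Mathlib only.
-/
import Mathlib

namespace Fermat.Agent.S30.Lattice.HomLattice

open TensorProduct

variable {G : Type*} [Group G] (S : Set G)

/-- The additive homomorphisms `G → A` vanishing on `S`, as an `R`-submodule. -/
def homS (R : Type*) [Semiring R] (A : Type*) [AddCommGroup A] [Module R A] :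
    Submodule R (Additive G →+ A) where
  carrier := {φ | ∀ s ∈ S, φ (Additive.ofMul s) = 0}
  zero_mem' := fun _ _ ↦ rfl
  add_mem' := by
    intro φ ψ hφ hψ s hs
    show φ (Additive.ofMul s) + ψ (Additive.ofMul s) = 0
    rw [hφ s hs, hψ s hs, add_zero]
  smul_mem' := by
    intro c φ hφ s hs
    show c • φ (Additive.ofMul s) = 0
    rw [hφ s hs, smul_zero]

theorem mem_homS_iff {R : Type*} [Semiring R] {A : Type*} [AddCommGroup A] [Module R A]
    {φ : Additive G →+ A} : φ ∈ homS S R A ↔ ∀ s ∈ S, φ (Additive.ofMul s) = 0 := Iff.rfl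

section Generators

variable {A : Type*} [AddCommGroup A]

/-- Two additive homomorphisms on `G` agreeing on a generating set are equal. -/
theorem hom_ext_of_closure {T : Set G} (hT : Subgroup.closure T = ⊤) {φ ψ : Additive G →+ A}
    (h : ∀ t ∈ T, φ (Additive.ofMul t) = ψ (Additive.ofMul t)) : φ = ψ := by
  have key : ∀ g : G, φ (Additive.ofMul g) = ψ (Additive.ofMul g) := by
    intro g
    have hg : g ∈ Subgroup.closure T := hT ▸ Subgroup.mem_top g
    induction hg using Subgroup.closure_induction with
    | mem x hx => exact h x hx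
    | one => simp
    | mul x y _ _ hx hy => rw [ofMul_mul, map_add, map_add, hx, hy]
    | inv x _ hx => rw [ofMul_inv, map_neg, map_neg, hx]
  ext g
  exact key (Additive.toMul g)

/-- The values of an additive homomorphism lie in the span of its values on generators. -/
theorem apply_mem_span {T : Set G} (hT : Subgroup.closure T = ⊤) (φ : Additive G →+ A) (g : G) :
    φ (Additive.ofMul g) ∈ Submodule.span ℤ ((fun t ↦ φ (Additive.ofMul t)) '' T) := by
  have hg : g ∈ Subgroup.closure T := hT ▸ Subgroup.mem_top g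
  induction hg using Subgroup.closure_induction with
  | mem x hx => exact Submodule.subset_span ⟨x, hx, rfl⟩
  | one => simp
  | mul x y _ _ hx hy =>
    rw [ofMul_mul, map_add]
    exact Submodule.add_mem _ hx hy
  | inv x _ hx =>
    rw [ofMul_inv, map_neg]
    exact Submodule.neg_mem _ hx

end Generators

section Phi

variable (R : Type*) [CommRing R] (A : Type*) [AddCommGroup A] [Module R A]

/-- `a ↦ (n ↦ n • a)`, composed with an integral homomorphism: the homomorphism `g ↦ φ g • a`. -/
def smulHom (a : A) (φ : Additive G →+ ℤ) : Additive G →+ A :=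
  ((smulAddHom ℤ A).flip a).comp φ

@[simp]
theorem smulHom_apply (a : A) (φ : Additive G →+ ℤ) (g : Additive G) :
    smulHom A a φ g = φ g • a := rfl

theorem smulHom_mem {a : A} {φ : Additive G →+ ℤ} (hφ : φ ∈ homS S ℤ ℤ) :
    smulHom A a φ ∈ homS S R A := by
  intro s hs
  rw [smulHom_apply, hφ s hs, zero_smul]

/-- The bilinear map underlying `Phi`. -/
def phiBil : A →ₗ[R] (homS S ℤ ℤ) →ₗ[ℤ] (homS S R A) where
  toFun a :=
    { toFun := fun φ ↦ ⟨smulHom A a φ.1, smulHom_mem S R A φ.2⟩
      map_add' := by
        intro φ ψ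
        ext g
        simp [add_smul]
      map_smul' := by
        intro n φ
        ext g
        simp [mul_smul] }
  map_add' := by
    intro a b
    ext φ g
    simp
  map_smul' := by
    intro r a
    ext φ g
    show (φ : Additive G →+ ℤ) g • (r • a) = r • ((φ : Additive G →+ ℤ) g • a)
    exact smul_comm _ _ _

/-- The natural map `A ⊗ Hom_S(G, ℤ) → Hom_S(G, A)`, `a ⊗ φ ↦ (g ↦ φ g • a)`. -/
def Phi : A ⊗[ℤ] (homS S ℤ ℤ) →ₗ[R] (homS S R A) :=
  AlgebraTensorModule.lift (phiBil S R A)

@[simp]
theorem Phi_tmul_apply (a : A) (φ : homS S ℤ ℤ) (g : Additive G) :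
    (Phi S R A (a ⊗ₜ φ) : Additive G →+ A) g = (φ : Additive G →+ ℤ) g • a := by
  simp [Phi, phiBil]

end Phi

section Eval

variable (R : Type*) [CommRing R] (A : Type*) [AddCommGroup A] [Module R A]
variable {ι : Type*} (t : ι → G)

/-- Evaluation of homomorphisms at a family of elements of `G`. -/
def evalGens : homS S R A →ₗ[R] (ι → A) where
  toFun φ i := (φ : Additive G →+ A) (Additive.ofMul (t i))
  map_add' _ _ := rfl
  map_smul' _ _ := rfl

@[simp]
theorem evalGens_apply (φ : homS S R A) (i : ι) :
    evalGens S R A t φ i = (φ : Additive G →+ A) (Additive.ofMul (t i)) := rfl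

theorem evalGens_injective (ht : Subgroup.closure (Set.range t) = ⊤) :
    Function.Injective (evalGens S R A t) := by
  intro φ ψ h
  apply Subtype.ext
  refine hom_ext_of_closure ht ?_
  rintro _ ⟨i, rfl⟩
  exact congrFun h i

end Eval

section Bijective

variable (R : Type*) [CommRing R] (A : Type*) [AddCommGroup A] [Module R A]

theorem evalGens_Phi {ι : Type*} [Fintype ι] [DecidableEq ι] (t : ι → G)
    (x : A ⊗[ℤ] (homS S ℤ ℤ)) :
    evalGens S R A t (Phi S R A x) =
      TensorProduct.piScalarRight ℤ ℤ A ι ((evalGens S ℤ ℤ t).lTensor A x) := by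
  induction x using TensorProduct.induction_on with
  | zero => simp
  | tmul a φ =>
    ext i
    simp
  | add x y hx hy =>
    rw [map_add, map_add, hx, hy, map_add, map_add]

/-- **Injectivity of the base-change map** for flat coefficients. -/
theorem Phi_injective [Module.Flat ℤ A] [Group.FG G] : Function.Injective (Phi S R A) := by
  classical
  obtain ⟨T, hT⟩ := Group.fg_def.mp (inferInstance : Group.FG G)
  have ht : Subgroup.closure (Set.range (fun i : T ↦ (i : G))) = ⊤ := by
    rw [Subtype.range_coe_subtype]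
    exact hT
  intro x y hxy
  have h1 := congrArg (evalGens S R A (fun i : T ↦ (i : G))) hxy
  rw [evalGens_Phi, evalGens_Phi] at h1
  have h2 := (TensorProduct.piScalarRight ℤ ℤ A T).injective h1
  exact Module.Flat.lTensor_preserves_injective_linearMap (M := A) _
    (evalGens_injective S ℤ ℤ _ ht) h2

/-- **Surjectivity of the base-change map** for flat coefficients. -/
theorem Phi_surjective [Module.Flat ℤ A] [Group.FG G] : Function.Surjective (Phi S R A) := by
  classical
  obtain ⟨T, hT⟩ := Group.fg_def.mp (inferInstance : Group.FG G)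
  intro ψ
  -- the (finitely generated, torsion-free, hence free) subgroup generated by the values of `ψ`
  set B : Submodule ℤ A :=
    Submodule.span ℤ ((fun t ↦ (ψ : Additive G →+ A) (Additive.ofMul t)) '' (T : Set G)) with hB
  have hmem : ∀ g : Additive G, (ψ : Additive G →+ A) g ∈ B := fun g ↦
    apply_mem_span hT (ψ : Additive G →+ A) (Additive.toMul g)
  have hfg : Module.Finite ℤ B :=
    Module.Finite.of_fg (Submodule.fg_span ((T.finite_toSet).image _))
  have hfree : Module.Free ℤ B := Module.free_of_finite_type_torsion_free'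
  let b := Module.Free.chooseBasis ℤ B
  -- `ψ` corestricted to `B`
  let ψ' : Additive G →+ B :=
    { toFun := fun g ↦ ⟨(ψ : Additive G →+ A) g, hmem g⟩
      map_zero' := Subtype.ext (map_zero _)
      map_add' := fun g h ↦ Subtype.ext (map_add _ g h) }
  -- coordinate homomorphisms
  let c : Module.Free.ChooseBasisIndex ℤ B → homS S ℤ ℤ := fun i ↦
    ⟨(b.coord i).toAddMonoidHom.comp ψ', by
      intro s hs
      have h0 : ψ' (Additive.ofMul s) = 0 := Subtype.ext (ψ.2 s hs)
      show b.coord i (ψ' (Additive.ofMul s)) = 0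
      rw [h0, map_zero]⟩
  refine ⟨∑ i, ((b i : B) : A) ⊗ₜ[ℤ] c i, ?_⟩
  apply Subtype.ext
  refine AddMonoidHom.ext fun g ↦ ?_
  rw [map_sum]
  have h1 : ((∑ i, Phi S R A (((b i : B) : A) ⊗ₜ[ℤ] c i) : homS S R A) : Additive G →+ A) g =
      ∑ i, (b.repr (ψ' g) i) • ((b i : B) : A) := by
    rw [Submodule.coe_sum, AddMonoidHom.finsetSum_apply]
    refine Finset.sum_congr rfl fun i _ ↦ ?_
    rw [Phi_tmul_apply]
    rfl
  rw [h1]
  have h2 := congrArg (fun x : B ↦ (x : A)) (b.sum_repr (ψ' g))
  simp only [Submodule.coe_sum, Submodule.coe_smul] at h2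
  exact h2

/-- **Base change for homomorphisms killing `S`**: `A ⊗ Hom_S(G, ℤ) ≃ Hom_S(G, A)` for every
`ℤ`-flat `R`-module `A` and finitely generated `G`. -/
noncomputable def theta [Module.Flat ℤ A] [Group.FG G] :
    A ⊗[ℤ] (homS S ℤ ℤ) ≃ₗ[R] (homS S R A) :=
  LinearEquiv.ofBijective (Phi S R A) ⟨Phi_injective S R A, Phi_surjective S R A⟩

@[simp]
theorem theta_tmul_apply [Module.Flat ℤ A] [Group.FG G] (a : A) (φ : homS S ℤ ℤ)
    (g : Additive G) :
    (theta S R A (a ⊗ₜ φ) : Additive G →+ A) g = (φ : Additive G →+ ℤ) g • a :=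
  Phi_tmul_apply S R A a φ g

/-- **Naturality.** An operator on integral homomorphisms and an operator on `A`-valued ones
which are compatible on the homomorphisms `g ↦ φ g • a` correspond under `theta`. -/
theorem theta_lTensor [Module.Flat ℤ A] [Group.FG G] (tZ : Module.End ℤ (homS S ℤ ℤ))
    (tA : Module.End R (homS S R A))
    (h : ∀ (a : A) (φ : homS S ℤ ℤ), tA (Phi S R A (a ⊗ₜ φ)) = Phi S R A (a ⊗ₜ tZ φ))
    (x : A ⊗[ℤ] (homS S ℤ ℤ)) :
    theta S R A (tZ.lTensor A x) = tA (theta S R A x) := by
  show Phi S R A (tZ.lTensor A x) = tA (Phi S R A x)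
  induction x using TensorProduct.induction_on with
  | zero => simp
  | tmul a φ => rw [LinearMap.lTensor_tmul, h]
  | add x y hx hy => rw [map_add, map_add, hx, hy, map_add, map_add]

end Bijective

section Integral

/-- `Hom_S(G, ℤ)` is a finitely generated `ℤ`-module. -/
instance finite_homS_int [Group.FG G] : Module.Finite ℤ (homS S ℤ ℤ) := by
  obtain ⟨T, hT⟩ := Group.fg_def.mp (inferInstance : Group.FG G)
  have ht : Subgroup.closure (Set.range (fun i : T ↦ (i : G))) = ⊤ := by
    rw [Subtype.range_coe_subtype]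
    exact hT
  exact Module.Finite.of_injective (evalGens S ℤ ℤ (fun i : T ↦ (i : G)))
    (evalGens_injective S ℤ ℤ _ ht)

/-- `Hom_S(G, ℤ)` is torsion-free. -/
instance isTorsionFree_homS_int [Group.FG G] : Module.IsTorsionFree ℤ (homS S ℤ ℤ) := by
  obtain ⟨T, hT⟩ := Group.fg_def.mp (inferInstance : Group.FG G)
  have ht : Subgroup.closure (Set.range (fun i : T ↦ (i : G))) = ⊤ := by
    rw [Subtype.range_coe_subtype]
    exact hT
  exact Function.Injective.moduleIsTorsionFree (evalGens S ℤ ℤ (fun i : T ↦ (i : G)))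
    (evalGens_injective S ℤ ℤ _ ht) (fun r m ↦ map_smul _ r m)

/-- **`Hom_S(G, ℤ)` is a finite free `ℤ`-module.** -/
instance free_homS_int [Group.FG G] : Module.Free ℤ (homS S ℤ ℤ) :=
  Module.free_of_finite_type_torsion_free'

end Integral

section Ring

variable (R : Type*) [CommRing R] [Module.Flat ℤ R] [Group.FG G]

/-- The ring version: `R ⊗ Hom_S(G, ℤ) ≃ₗ[R] Hom_S(G, R)`. -/
noncomputable abbrev thetaRing : R ⊗[ℤ] (homS S ℤ ℤ) ≃ₗ[R] (homS S R R) := theta S R R

/-- The integral homomorphism `φ` viewed with values in `R`. -/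
def castHomS (φ : homS S ℤ ℤ) : homS S R R :=
  ⟨(Int.castAddHom R).comp φ.1, by
    intro s hs
    show ((φ.1 (Additive.ofMul s) : ℤ) : R) = 0
    rw [φ.2 s hs, Int.cast_zero]⟩

omit [Module.Flat ℤ R] [Group.FG G] in
@[simp]
theorem castHomS_apply (φ : homS S ℤ ℤ) (g : Additive G) :
    (castHomS S R φ : Additive G →+ R) g = ((φ : Additive G →+ ℤ) g : R) := rfl

theorem thetaRing_tmul (r : R) (φ : homS S ℤ ℤ) :
    thetaRing S R (r ⊗ₜ φ) = r • castHomS S R φ := by
  apply Subtype.ext
  refine AddMonoidHom.ext fun g ↦ ?_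
  rw [theta_tmul_apply]
  show (φ : Additive G →+ ℤ) g • r = r * ((φ : Additive G →+ ℤ) g : R)
  rw [zsmul_eq_mul, mul_comm]

/-- **Naturality, ring version**: an `R`-linear operator on `Hom_S(G, R)` which restricts to `tZ`
on the integral homomorphisms corresponds to the base change of `tZ`. -/
theorem thetaRing_baseChange (tZ : Module.End ℤ (homS S ℤ ℤ)) (tR : Module.End R (homS S R R))
    (h : ∀ φ : homS S ℤ ℤ, tR (castHomS S R φ) = castHomS S R (tZ φ))
    (x : R ⊗[ℤ] (homS S ℤ ℤ)) :
    thetaRing S R (tZ.baseChange R x) = tR (thetaRing S R x) := by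
  induction x using TensorProduct.induction_on with
  | zero => simp
  | tmul r φ =>
    rw [LinearMap.baseChange_tmul, thetaRing_tmul, thetaRing_tmul, map_smul, h]
  | add x y hx hy => rw [map_add, map_add, hx, hy, map_add, map_add]

/-- The rank does not change under base change to a (nontrivial) flat ring. -/
theorem finrank_homS [Nontrivial R] :
    Module.finrank R (homS S R R) = Module.finrank ℤ (homS S ℤ ℤ) := by
  rw [← (thetaRing S R).finrank_eq, Module.finrank_baseChange]

instance finite_homS [Nontrivial R] : Module.Finite R (homS S R R) :=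
  Module.Finite.equiv (thetaRing S R)

instance free_homS [Nontrivial R] : Module.Free R (homS S R R) :=
  Module.Free.of_equiv (thetaRing S R)

end Ring

end Fermat.Agent.S30.Lattice.HomLattice
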