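/-
PROJECT J, slice J-4-L: the lattice / base-change statement for parabolic homomorphisms of
`Γ₀(N)`:  `R ⊗ Hom_par(Γ, ℤ) ≃ Hom_par(Γ, R)` for every `ℤ`-flat commutative ring `R`,
`Hom_par(Γ, ℤ)` is finite free, and the equivalence is natural for coefficient-natural operators.
-/
import Fermat.Agent.S30.Lattice.HomLattice
import Fermat.Prelude.Def_ModularCurve_PeriodMap
import Fermat.Agent.S22.Gamma0FG

namespace Fermat.Agent.S30.Lattice.BaseChange

open ModularCurve.Period TensorProduct CongruenceSubgroup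
open Fermat.Agent.S30.Lattice.HomLattice
open scoped MatrixGroups

variable (Γ : Subgroup SL(2, ℤ))

/-- The parabolic elements (`trace² = 4`) of `Γ`. -/
def parSet : Set Γ :=
  {γ | ((γ : SL(2, ℤ)) : Matrix (Fin 2) (Fin 2) ℤ).trace ^ 2 = 4}

/-- The Prelude's `parabolicHoms` is the abstract `homS` for the set of parabolic elements. -/
theorem parabolicHoms_eq_homS (R : Type*) [Semiring R] (A : Type*) [AddCommGroup A] [Module R A] :
    parabolicHoms R Γ A = homS (parSet Γ) R A := rfl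

section General

variable [Group.FG Γ]

/-- `Hom_par(Γ, ℤ)` is a finitely generated `ℤ`-module. -/
instance finite_parabolicHoms_int : Module.Finite ℤ (parabolicHoms ℤ Γ ℤ) :=
  finite_homS_int (parSet Γ)

/-- `Hom_par(Γ, ℤ)` is a free `ℤ`-module. -/
instance free_parabolicHoms_int : Module.Free ℤ (parabolicHoms ℤ Γ ℤ) :=
  free_homS_int (parSet Γ)

variable (R : Type*) [CommRing R] [Module.Flat ℤ R]

/-- **Base change**: `R ⊗ Hom_par(Γ, ℤ) ≃ₗ[R] Hom_par(Γ, R)` for `R` flat (= torsion-free)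
over `ℤ`. -/
noncomputable def baseChangeEquiv :
    R ⊗[ℤ] (parabolicHoms ℤ Γ ℤ) ≃ₗ[R] (parabolicHoms R Γ R) :=
  thetaRing (parSet Γ) R

/-- An integral parabolic homomorphism viewed with values in `R`. -/
def castPar (φ : parabolicHoms ℤ Γ ℤ) : parabolicHoms R Γ R :=
  castHomS (parSet Γ) R φ

omit [Group.FG Γ] [Module.Flat ℤ R] in
@[simp]
theorem castPar_apply (φ : parabolicHoms ℤ Γ ℤ) (g : Additive Γ) :
    (castPar Γ R φ : Additive Γ →+ R) g = ((φ : Additive Γ →+ ℤ) g : R) := rfl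

theorem baseChangeEquiv_tmul (r : R) (φ : parabolicHoms ℤ Γ ℤ) :
    baseChangeEquiv Γ R (r ⊗ₜ φ) = r • castPar Γ R φ :=
  thetaRing_tmul (parSet Γ) R r φ

theorem baseChangeEquiv_tmul_apply (r : R) (φ : parabolicHoms ℤ Γ ℤ) (g : Additive Γ) :
    (baseChangeEquiv Γ R (r ⊗ₜ φ) : Additive Γ →+ R) g = r * ((φ : Additive Γ →+ ℤ) g : R) := by
  rw [baseChangeEquiv_tmul]
  rfl

/-- **Naturality**: an `R`-linear operator `tR` on `Hom_par(Γ, R)` that restricts to `tZ` on the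
integral homomorphisms corresponds to the base change of `tZ`. -/
theorem baseChangeEquiv_comm (tZ : Module.End ℤ (parabolicHoms ℤ Γ ℤ))
    (tR : Module.End R (parabolicHoms R Γ R))
    (h : ∀ φ : parabolicHoms ℤ Γ ℤ, tR (castPar Γ R φ) = castPar Γ R (tZ φ))
    (x : R ⊗[ℤ] (parabolicHoms ℤ Γ ℤ)) :
    baseChangeEquiv Γ R (tZ.baseChange R x) = tR (baseChangeEquiv Γ R x) :=
  thetaRing_baseChange (parSet Γ) R tZ tR h x

theorem finrank_parabolicHoms [Nontrivial R] :
    Module.finrank R (parabolicHoms R Γ R) = Module.finrank ℤ (parabolicHoms ℤ Γ ℤ) :=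
  finrank_homS (parSet Γ) R

instance finite_parabolicHoms [Nontrivial R] : Module.Finite R (parabolicHoms R Γ R) :=
  finite_homS (parSet Γ) R

instance free_parabolicHoms [Nontrivial R] : Module.Free R (parabolicHoms R Γ R) :=
  free_homS (parSet Γ) R

/-- General coefficients: `A ⊗ Hom_par(Γ, ℤ) ≃ₗ[R] Hom_par(Γ, A)` for a `ℤ`-flat `R`-module `A`. -/
noncomputable def baseChangeEquivModule (A : Type*) [AddCommGroup A] [Module R A]
    [Module.Flat ℤ A] : A ⊗[ℤ] (parabolicHoms ℤ Γ ℤ) ≃ₗ[R] (parabolicHoms R Γ A) :=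
  theta (parSet Γ) R A

omit [Module.Flat ℤ R] in
@[simp]
theorem baseChangeEquivModule_tmul_apply (A : Type*) [AddCommGroup A] [Module R A]
    [Module.Flat ℤ A] (a : A) (φ : parabolicHoms ℤ Γ ℤ) (g : Additive Γ) :
    (baseChangeEquivModule Γ R A (a ⊗ₜ φ) : Additive Γ →+ A) g =
      (φ : Additive Γ →+ ℤ) g • a :=
  theta_tmul_apply (parSet Γ) R A a φ g

end General

/-! ### The instance `Γ = Γ₀(N)` -/

section Gamma0

variable (N : ℕ) [NeZero N]

example : Group.FG (Gamma0 N) := inferInstance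

example : Module.Finite ℤ (parabolicHoms ℤ (Gamma0 N) ℤ) := inferInstance

example : Module.Free ℤ (parabolicHoms ℤ (Gamma0 N) ℤ) := inferInstance

/-- `ℂ ⊗ Hom_par(Γ₀(N), ℤ) ≃ Hom_par(Γ₀(N), ℂ)`. -/
noncomputable example :
    ℂ ⊗[ℤ] (parabolicHoms ℤ (Gamma0 N) ℤ) ≃ₗ[ℂ] (parabolicHoms ℂ (Gamma0 N) ℂ) :=
  baseChangeEquiv (Gamma0 N) ℂ

theorem finrank_parabolicHoms_complex :
    Module.finrank ℂ (parabolicHoms ℂ (Gamma0 N) ℂ) =
      Module.finrank ℤ (parabolicHoms ℤ (Gamma0 N) ℤ) :=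
  finrank_parabolicHoms (Gamma0 N) ℂ

end Gamma0

end Fermat.Agent.S30.Lattice.BaseChange
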